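/-
Program R, package RH-local (helper2).
(K1) For a field extension `F/K` in characteristic zero and `t : F` with `F` algebraic over
`K⟮t⟯`, the Kähler differentials `Ω[F⁄K]` are spanned by `D K F t`.
-/
import Mathlib

set_option autoImplicit false

noncomputable section

namespace Fermat.Agent.ProgramR.RHLocal

open KaehlerDifferential IntermediateField Cardinal

universe u v

variable {K : Type u} {F : Type v} [Field K] [Field F] [Algebra K F]

/-- Exchange: if `F` is algebraic over `K⟮x⟯` and `t` is transcendental over `K`, then `F` is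
algebraic over `K⟮t⟯`. -/
theorem isAlgebraic_adjoin_of_transcendental {x : F} [Algebra.IsAlgebraic K⟮x⟯ F]
    {t : F} (ht : Transcendental K t) : Algebra.IsAlgebraic K⟮t⟯ F := by
  have h1 : Algebra.IsAlgebraic (Algebra.adjoin K ({x} : Set F)) F :=
    IntermediateField.isAlgebraic_adjoin_iff_top.mp inferInstance
  have h2 : Algebra.trdeg K F ≤ 1 := by
    have := Algebra.IsAlgebraic.trdeg_le_cardinalMk K ({x} : Set F)
    simpa using this
  have h3 : AlgebraicIndependent K (fun _ : PUnit.{v+1} => t) := by
    rw [algebraicIndependent_unique_type_iff]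
    exact ht
  have h4 : IsTranscendenceBasis K (fun _ : PUnit.{v+1} => t) :=
    h3.isTranscendenceBasis_of_trdeg_le_of_finite (by simpa using h2)
  have h5 := h4.isAlgebraic_field
  have : Set.range (fun _ : PUnit.{v+1} => t) = {t} := by
    ext; simp
  rwa [this] at h5

/-- The differential of an element of `K⟮t⟯` is a multiple of `dt`. -/
theorem D_mem_span_of_mem_adjoin_simple (t : F) {s : F} (hs : s ∈ K⟮t⟯) :
    D K F s ∈ Submodule.span F {D K F t} := by
  obtain ⟨p, q, rfl⟩ := (IntermediateField.mem_adjoin_simple_iff K s).mp hs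
  rw [Derivation.leibniz_div, Derivation.map_aeval, Derivation.map_aeval]
  refine Submodule.smul_mem _ _ (Submodule.sub_mem _ ?_ ?_)
  · exact Submodule.smul_mem _ _ (Submodule.smul_mem _ _ (Submodule.mem_span_singleton_self _))
  · exact Submodule.smul_mem _ _ (Submodule.smul_mem _ _ (Submodule.mem_span_singleton_self _))

/-- **(K1)** In characteristic zero, if `F` is algebraic over `K⟮t⟯` then `Ω[F⁄K] = F dt`. -/
theorem span_D_eq_top_of_isAlgebraic [CharZero K] (t : F) [Algebra.IsAlgebraic K⟮t⟯ F] :
    Submodule.span F {D K F t} = ⊤ := by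
  haveI : CharZero K⟮t⟯ := charZero_of_injective_algebraMap (algebraMap K K⟮t⟯).injective
  haveI : Algebra.IsSeparable K⟮t⟯ F := Algebra.IsAlgebraic.isSeparable_of_perfectField
  haveI : Algebra.FormallyUnramified K⟮t⟯ F := Algebra.FormallyUnramified.of_isSeparable K⟮t⟯ F
  rw [eq_top_iff]
  rintro ω -
  have hker : ω ∈ LinearMap.ker (KaehlerDifferential.map K K⟮t⟯ F F) := by
    rw [LinearMap.mem_ker]
    exact Subsingleton.elim _ _
  rw [← KaehlerDifferential.range_mapBaseChange] at hker
  obtain ⟨x, rfl⟩ := hker
  induction x using TensorProduct.induction_on with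
  | zero => simp
  | tmul b y =>
    rw [KaehlerDifferential.mapBaseChange_tmul]
    refine Submodule.smul_mem _ _ ?_
    have hy : y ∈ Submodule.span K⟮t⟯ (Set.range (D K K⟮t⟯)) := by
      rw [KaehlerDifferential.span_range_derivation]; exact Submodule.mem_top
    induction hy using Submodule.span_induction with
    | mem z hz =>
      obtain ⟨s, rfl⟩ := hz
      rw [KaehlerDifferential.map_D]
      exact D_mem_span_of_mem_adjoin_simple t s.2
    | zero => simp
    | add y z _ _ hy hz => rw [map_add]; exact Submodule.add_mem _ hy hz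
    | smul a y _ hy =>
      rw [map_smul, ← algebraMap_smul F a]
      exact Submodule.smul_mem _ _ hy
  | add x y hx hy => rw [map_add]; exact Submodule.add_mem _ hx hy

end Fermat.Agent.ProgramR.RHLocal
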