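/-
Program R, package RH-local (helper2).
Local Riemann–Hurwitz on the PRELUDE's `AlgebraicCurve.Place` / `ordDifferential`:
at a rational place `v` (residue field `= K`, characteristic zero), if every uniformizer `π`
satisfies `span F {D K F π} = ⊤`, then
* `v.DCoordGenerates`, `Nontrivial Ω[F⁄K]`,
* `v.ordDifferential (D K F y) = v.ord y - 1` whenever `v.ord y ≠ 0`,
* `0 ≤ v.ordDifferential (D K F y)` for `y ∈ O_v`, and
  `v.ordDifferential (D K F y) = v.ord (y - c) - 1` where `c = y(v) ∈ K`, if `y ≠ c`.
-/
import Fermat.Agent.ProgramR.RHLocal.Deriv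
import Fermat.Prelude.Def_AlgebraicCurve_CanonicalDivisor
import Fermat.Prelude.Def_AlgebraicCurve_IsCurveOver
import Fermat.Prelude.Def_AlgebraicCurve_Repartitions

set_option autoImplicit false

noncomputable section

namespace Fermat.Agent.ProgramR.RHLocal

open IsLocalRing PowerSeries KaehlerDifferential AlgebraicCurve

variable {K F : Type*} [Field K] [Field F] [Algebra K F]

/-- A place is rational if `K` maps onto its residue field. -/
abbrev IsRationalPlace (v : Place K F) : Prop := RatRes K v.toValuationSubring

theorem isRationalPlace_of_deg_eq_one (v : Place K F) (h : v.deg = 1) : IsRationalPlace v := by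
  refine ⟨?_⟩
  have h1 : Module.finrank K v.ResidueField = 1 := h
  have : (⊥ : Subalgebra K v.ResidueField) = ⊤ := Subalgebra.bot_eq_top_of_finrank_eq_one h1
  exact Algebra.surjective_algebraMap_iff.2 this.symm

theorem isRationalPlace_of_isAlgClosed [IsAlgClosed K] (v : Place K F)
    [Module.Finite K v.ResidueField] : IsRationalPlace v :=
  isRationalPlace_of_deg_eq_one v v.deg_eq_one_of_isAlgClosed_of_finite

/-- The uniformizer chosen (privately) by the prelude. -/
def chosenUniformizer (v : Place K F) : v.toValuationSubring :=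
  (IsDiscreteValuationRing.exists_irreducible v.toValuationSubring).choose

theorem chosenUniformizer_irreducible (v : Place K F) : Irreducible (chosenUniformizer v) :=
  (IsDiscreteValuationRing.exists_irreducible v.toValuationSubring).choose_spec

theorem dCoord_eq (v : Place K F) : v.dCoord = D K F ((chosenUniformizer v : v.toValuationSubring) : F) :=
  rfl

theorem ord_chosenUniformizer (v : Place K F) :
    v.ord ((chosenUniformizer v : v.toValuationSubring) : F) = 1 :=
  v.ord_coe_irreducible (chosenUniformizer_irreducible v)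

section Main

variable (v : Place K F) [hrat : RatRes K v.toValuationSubring]

/-- A uniformizer has nonzero differential (no hypothesis on `Ω` needed). -/
theorem D_irreducible_ne_zero {ϖ : v.toValuationSubring} (hϖ : Irreducible ϖ) :
    D K F (ϖ : F) ≠ 0 := by
  intro h0
  have hrel : algebraMap v.toValuationSubring F 1 • D K F (algebraMap v.toValuationSubring F ϖ)
      = algebraMap v.toValuationSubring F 0 • D K F (algebraMap v.toValuationSubring F ϖ) := by
    rw [map_zero, zero_smul, map_one, one_smul]
    exact h0
  have := taylor_rel_of_D_rel (K := K) (F := F) hϖ hrel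
  rw [map_one, map_zero, one_mul, taylor_irreducible, PowerSeries.derivative_X] at this
  exact one_ne_zero this

include v hrat in
theorem nontrivial_kaehler : Nontrivial Ω[F⁄K] :=
  ⟨⟨_, 0, D_irreducible_ne_zero v (chosenUniformizer_irreducible v)⟩⟩

/-- `span F {dπ} = ⊤` for every uniformizer `π` of `v`. -/
def UniformizerSpans : Prop :=
  ∀ ϖ : v.toValuationSubring, Irreducible ϖ → Submodule.span F {D K F (ϖ : F)} = ⊤

variable {v}

omit hrat in
theorem dCoordGenerates_of_spans (h : UniformizerSpans v) : v.DCoordGenerates :=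
  ⟨by rw [dCoord_eq]; exact h _ (chosenUniformizer_irreducible v)⟩

theorem ordDifferential_D_unit_mul_zpow [CharZero K] (h : UniformizerSpans v)
    (u : v.toValuationSubringˣ) {n : ℤ} (hn : n ≠ 0) :
    v.ordDifferential (D K F (((u : v.toValuationSubring) : F)
      * ((chosenUniformizer v : v.toValuationSubring) : F) ^ n)) = n - 1 := by
  haveI := dCoordGenerates_of_spans h
  haveI := nontrivial_kaehler v
  have hϖ := chosenUniformizer_irreducible v
  obtain ⟨w, hw⟩ := exists_D_unit_mul_zpow (K := K) (F := F) hϖ (h _ hϖ) u hn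
  have hw' : D K F (((u : v.toValuationSubring) : F)
      * ((chosenUniformizer v : v.toValuationSubring) : F) ^ n)
      = (((w : v.toValuationSubring) : F)
        * ((chosenUniformizer v : v.toValuationSubring) : F) ^ (n - 1)) • v.dCoord := hw
  rw [Place.ordDifferential, v.differentialCoeff_unique hw', v.ord_unit_smul_zpow w hϖ]

/-- **Local Riemann–Hurwitz**: `ord_v (dy) = ord_v y - 1` if `ord_v y ≠ 0`. -/
theorem ordDifferential_D_of_ord_ne_zero [CharZero K] (h : UniformizerSpans v) {y : F}
    (hy : v.ord y ≠ 0) : v.ordDifferential (D K F y) = v.ord y - 1 := by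
  have hy0 : y ≠ 0 := by
    rintro rfl
    exact hy v.ord_zero
  obtain ⟨u, hu⟩ := v.exists_unit_mul_zpow hy0 (chosenUniformizer_irreducible v)
  conv_lhs => rw [hu]
  exact ordDifferential_D_unit_mul_zpow h u hy

end Main

section Holomorphic

variable {v : Place K F} [hrat : RatRes K v.toValuationSubring]

omit hrat in
theorem ord_nonneg_of_mem {y : F} (hy : y ∈ v.toValuationSubring) : 0 ≤ v.ord y := by
  rcases (v.adicValuation_le_one_iff).mp (v.adicValuation_le_one_of_mem hy) with h | h
  · rw [h, v.ord_zero]
  · exact h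

omit hrat in
theorem one_le_ord_of_mem_maximalIdeal {a : v.toValuationSubring}
    (ha : a ∈ maximalIdeal v.toValuationSubring) (ha0 : a ≠ 0) : 1 ≤ v.ord (a : F) := by
  have hϖ := chosenUniformizer_irreducible v
  rw [hϖ.maximalIdeal_eq, Ideal.mem_span_singleton] at ha
  obtain ⟨b, rfl⟩ := ha
  have hb0 : b ≠ 0 := right_ne_zero_of_mul ha0
  have h1 : ((chosenUniformizer v : v.toValuationSubring) : F) ≠ 0 := by
    simpa using hϖ.ne_zero
  have h2 : (b : F) ≠ 0 := by simpa using hb0
  have : ((chosenUniformizer v * b : v.toValuationSubring) : F)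
      = ((chosenUniformizer v : v.toValuationSubring) : F) * (b : F) := rfl
  rw [this, v.ord_mul h1 h2, ord_chosenUniformizer]
  have := ord_nonneg_of_mem (v := v) b.2
  omega

omit hrat in
theorem ord_neg_of_not_mem {y : F} (hy : y ∉ v.toValuationSubring) : v.ord y < 0 := by
  have hy0 : y ≠ 0 := by
    rintro rfl
    exact hy (zero_mem _)
  have hinv : y⁻¹ ∈ v.toValuationSubring := (v.toValuationSubring.mem_or_inv_mem y).resolve_left hy
  have hnu : (⟨y⁻¹, hinv⟩ : v.toValuationSubring) ∈ maximalIdeal v.toValuationSubring := by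
    rw [mem_maximalIdeal, mem_nonunits_iff]
    intro hu
    obtain ⟨w, hw⟩ := hu
    apply hy
    have h1 : ((w⁻¹ : v.toValuationSubringˣ) : v.toValuationSubring) * ⟨y⁻¹, hinv⟩ = 1 := by
      rw [← hw]; simp
    have h2 := congrArg (fun z : v.toValuationSubring => (z : F)) h1
    simp only [MulMemClass.coe_mul, OneMemClass.coe_one] at h2
    have h3 : (((w⁻¹ : v.toValuationSubringˣ) : v.toValuationSubring) : F) = y := by
      field_simp at h2
      exact h2
    rw [← h3]
    exact ((w⁻¹ : v.toValuationSubringˣ) : v.toValuationSubring).2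
  have hne : (⟨y⁻¹, hinv⟩ : v.toValuationSubring) ≠ 0 := by
    intro h0
    have := congrArg (fun z : v.toValuationSubring => (z : F)) h0
    simp at this
    exact hy0 this
  have h1 := one_le_ord_of_mem_maximalIdeal hnu hne
  have h2 : v.ord y⁻¹ = -v.ord y := v.ord_inv y
  have h3 : v.ord ((⟨y⁻¹, hinv⟩ : v.toValuationSubring) : F) = v.ord y⁻¹ := rfl
  omega

/-- The value `y(v) ∈ K` of a function regular at the rational place `v`. -/
def valueAt (v : Place K F) [RatRes K v.toValuationSubring] (y : v.toValuationSubring) : K :=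
  res K v.toValuationSubring y

theorem sub_valueAt_mem (y : v.toValuationSubring) :
    y - algebraMap K v.toValuationSubring (valueAt v y) ∈ maximalIdeal v.toValuationSubring :=
  sub_algebraMap_res_mem (K := K) y

/-- For `y` regular at `v` and not constant: `ord_v(y - y(v)) ≥ 1`. -/
theorem one_le_ord_sub_valueAt (y : v.toValuationSubring)
    (hne : (y : F) ≠ algebraMap K F (valueAt v y)) :
    1 ≤ v.ord ((y : F) - algebraMap K F (valueAt v y)) := by
  have hmem := sub_valueAt_mem (v := v) y
  have hne' : y - algebraMap K v.toValuationSubring (valueAt v y) ≠ 0 := by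
    intro h0
    apply hne
    have := congrArg (fun z : v.toValuationSubring => (z : F)) h0
    simpa [sub_eq_zero] using this
  have h1 := one_le_ord_of_mem_maximalIdeal hmem hne'
  have hcoe : ((y - algebraMap K v.toValuationSubring (valueAt v y) : v.toValuationSubring) : F)
      = (y : F) - algebraMap K F (valueAt v y) := rfl
  rw [hcoe] at h1
  exact h1

/-- For `y` regular at `v` and not constant: `ord_v(dy) = ord_v(y - y(v)) - 1` and
`ord_v(y - y(v)) ≥ 1`. -/
theorem ordDifferential_D_of_mem [CharZero K] (h : UniformizerSpans v) (y : v.toValuationSubring)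
    (hne : (y : F) ≠ algebraMap K F (valueAt v y)) :
    1 ≤ v.ord ((y : F) - algebraMap K F (valueAt v y)) ∧
    v.ordDifferential (D K F (y : F)) = v.ord ((y : F) - algebraMap K F (valueAt v y)) - 1 := by
  have h1 := one_le_ord_sub_valueAt y hne
  refine ⟨h1, ?_⟩
  have hD : D K F (y : F) = D K F ((y : F) - algebraMap K F (valueAt v y)) := by
    rw [map_sub, Derivation.map_algebraMap, sub_zero]
  rw [hD]
  exact ordDifferential_D_of_ord_ne_zero h (by omega)

/-- `dy` is regular at `v` if `y` is. -/
theorem ordDifferential_D_nonneg_of_mem [CharZero K] (h : UniformizerSpans v) {y : F}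
    (hy : y ∈ v.toValuationSubring) : 0 ≤ v.ordDifferential (D K F y) := by
  haveI := dCoordGenerates_of_spans h
  haveI := nontrivial_kaehler v
  by_cases hne : y = algebraMap K F (valueAt v ⟨y, hy⟩)
  · rw [hne, Derivation.map_algebraMap, Place.ordDifferential, v.differentialCoeff_zero,
      v.ord_zero]
  · obtain ⟨h1, h2⟩ := ordDifferential_D_of_mem h ⟨y, hy⟩ hne
    have h2' : v.ordDifferential (D K F y)
        = v.ord (y - algebraMap K F (valueAt v ⟨y, hy⟩)) - 1 := h2
    have h1' : 1 ≤ v.ord (y - algebraMap K F (valueAt v ⟨y, hy⟩)) := h1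
    omega

/-- At a pole: `ord_v(dy) = ord_v(y) - 1 < -1`. -/
theorem ordDifferential_D_of_not_mem [CharZero K] (h : UniformizerSpans v) {y : F}
    (hy : y ∉ v.toValuationSubring) :
    v.ord y < 0 ∧ v.ordDifferential (D K F y) = v.ord y - 1 := by
  have hneg : v.ord y < 0 := ord_neg_of_not_mem hy
  exact ⟨hneg, ordDifferential_D_of_ord_ne_zero h (by omega)⟩

end Holomorphic

end Fermat.Agent.ProgramR.RHLocal
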