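/-
Program R, package RH-local (helper2).  SUMMARY FILE.

Setting: `K` a field of characteristic zero, `F/K` a field extension which is a function field
in one variable in the weak sense `hF : ∃ x : F, Algebra.IsAlgebraic K⟮x⟯ F`,
`v : AlgebraicCurve.Place K F` (PRELUDE) a rational place (`IsRationalPlace v`; automatic if
`K` is algebraically closed and the residue field is finite over `K`, or if `v.deg = 1`).

Results (all on the prelude's `ordDifferential`):
* `transcendental_of_ord_ne_zero`
* `uniformizerSpans`, `dCoordGenerates`, `nontrivial_kaehler'`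
* `ordDifferential_D_eq_of_ord_ne_zero`   : `ord_v (dy) = ord_v y - 1` if `ord_v y ≠ 0`
* `ordDifferential_D_eq_of_mem`            : `ord_v (dy) = ord_v (y - y(v)) - 1 ≥ 0`, `y ∈ O_v ∖ K`
* `ordDifferential_D_nonneg`               : `0 ≤ ord_v (dy)` for `y ∈ O_v`
* `ordDifferential_D_eq_of_not_mem`        : `ord_v (dy) = ord_v y - 1 ≤ -2` for `y ∉ O_v`
-/
import Fermat.Agent.ProgramR.RHLocal.Place
import Fermat.Agent.ProgramR.RHLocal.Kaehler

set_option autoImplicit false

noncomputable section

namespace Fermat.Agent.ProgramR.RHLocal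

open IsLocalRing KaehlerDifferential AlgebraicCurve IntermediateField

variable {K F : Type*} [Field K] [Field F] [Algebra K F]

/-- The valuation ring of a place as a `K`-subalgebra of `F`. -/
def placeSubalgebra (v : Place K F) : Subalgebra K F :=
  { v.toValuationSubring.toSubring with
    algebraMap_mem' := v.algebraMap_mem' }

theorem mem_placeSubalgebra {v : Place K F} {y : F} :
    y ∈ placeSubalgebra v ↔ y ∈ v.toValuationSubring := Iff.rfl

/-- A function with a zero or a pole at some place is transcendental over the constants. -/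
theorem transcendental_of_ord_ne_zero (v : Place K F) {y : F} (hy : v.ord y ≠ 0) :
    Transcendental K y := by
  intro halg
  have hy0 : y ≠ 0 := by
    rintro rfl
    exact hy v.ord_zero
  have key : ∀ z : F, IsAlgebraic K z → z ∈ v.toValuationSubring → v.ord z = 0 := by
    intro z hz hmem
    have hinv : z⁻¹ ∈ placeSubalgebra v :=
      (placeSubalgebra v).inv_mem_of_algebraic (x := ⟨z, hmem⟩) hz
    have h1 := ord_nonneg_of_mem (v := v) hmem
    have h2 := ord_nonneg_of_mem (v := v) (mem_placeSubalgebra.mp hinv)
    rw [v.ord_inv] at h2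
    omega
  rcases v.toValuationSubring.mem_or_inv_mem y with h | h
  · exact hy (key y halg h)
  · have := key y⁻¹ halg.inv h
    rw [v.ord_inv] at this
    exact hy (by omega)

variable [CharZero K]

/-- In a function field of one variable (char. 0), `Ω[F⁄K] = F dπ` for every uniformizer. -/
theorem uniformizerSpans (hF : ∃ x : F, Algebra.IsAlgebraic K⟮x⟯ F) (v : Place K F) :
    UniformizerSpans v := by
  intro ϖ hϖ
  obtain ⟨x, hx⟩ := hF
  have ht : Transcendental K (ϖ : F) :=
    transcendental_of_ord_ne_zero v (by rw [v.ord_coe_irreducible hϖ]; exact one_ne_zero)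
  haveI := isAlgebraic_adjoin_of_transcendental (x := x) ht
  exact span_D_eq_top_of_isAlgebraic (ϖ : F)

theorem dCoordGenerates (hF : ∃ x : F, Algebra.IsAlgebraic K⟮x⟯ F) (v : Place K F) :
    v.DCoordGenerates :=
  dCoordGenerates_of_spans (uniformizerSpans hF v)

variable (hF : ∃ x : F, Algebra.IsAlgebraic K⟮x⟯ F) (v : Place K F) (hv : IsRationalPlace v)

include hF hv

theorem ordDifferential_D_eq_of_ord_ne_zero {y : F} (hy : v.ord y ≠ 0) :
    v.ordDifferential (D K F y) = v.ord y - 1 :=
  haveI := hv
  ordDifferential_D_of_ord_ne_zero (uniformizerSpans hF v) hy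

theorem ordDifferential_D_nonneg {y : F} (hy : y ∈ v.toValuationSubring) :
    0 ≤ v.ordDifferential (D K F y) :=
  haveI := hv
  ordDifferential_D_nonneg_of_mem (uniformizerSpans hF v) hy

theorem ordDifferential_D_eq_of_not_mem {y : F} (hy : y ∉ v.toValuationSubring) :
    v.ord y < 0 ∧ v.ordDifferential (D K F y) = v.ord y - 1 :=
  haveI := hv
  ordDifferential_D_of_not_mem (uniformizerSpans hF v) hy

/-- For `y` regular at `v` with value `c = y(v)` (any `c : K` with `ord_v (y - c) > 0`):
`ord_v (dy) = ord_v (y - c) - 1`. -/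
theorem ordDifferential_D_eq_of_sub_const {y : F} (c : K)
    (hc : v.ord (y - algebraMap K F c) ≠ 0) :
    v.ordDifferential (D K F y) = v.ord (y - algebraMap K F c) - 1 := by
  haveI := hv
  have hD : D K F y = D K F (y - algebraMap K F c) := by
    rw [map_sub, Derivation.map_algebraMap, sub_zero]
  rw [hD]
  exact ordDifferential_D_of_ord_ne_zero (uniformizerSpans hF v) hc

omit hF [CharZero K] in
/-- Existence of the value: for `y ∈ O_v` there is `c : K` with `y = c` or `ord_v (y - c) ≥ 1`. -/
theorem exists_value {y : F} (hy : y ∈ v.toValuationSubring) :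
    ∃ c : K, y = algebraMap K F c ∨ 1 ≤ v.ord (y - algebraMap K F c) := by
  haveI := hv
  refine ⟨valueAt v ⟨y, hy⟩, ?_⟩
  by_cases hne : y = algebraMap K F (valueAt v ⟨y, hy⟩)
  · exact Or.inl hne
  · right
    exact one_le_ord_sub_valueAt (v := v) ⟨y, hy⟩ hne

end Fermat.Agent.ProgramR.RHLocal
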