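/-
Program R, package RH-global (helper2).
Riemann–Hurwitz for a function field `F / K(x)` on the PRELUDE's `Place` / `Divisor` / `genus`:
the genus (defined by the prelude through the degree of the divisor of a Kähler differential)
is determined by the number of places over each point of the `x`-line.
-/
import Fermat.Agent.ProgramR.RHLocal.Main
import Fermat.Agent.ProgramR.FunctionField.Fibre

set_option autoImplicit false
set_option linter.style.haveILetI false
set_option linter.unusedSectionVars false

noncomputable section

namespace Fermat.Agent.ProgramR.RHLocal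

open AlgebraicCurve KaehlerDifferential IntermediateField

universe u v

variable {K : Type u} {F : Type v} [Field K] [Field F] [Algebra K F]

section FiniteDim

/-- `F` finitely generated (`[F : K(x)] < ∞`) and algebraic over `K(t)` implies `[F : K(t)] < ∞`. -/
theorem finiteDimensional_adjoin_of_algebraic {x t : F} [FiniteDimensional K⟮x⟯ F]
    [Algebra.IsAlgebraic K⟮t⟯ F] : FiniteDimensional K⟮t⟯ F := by
  classical
  let b := Module.finBasis K⟮x⟯ F
  let S : Set F := insert x (Set.range b)
  have hSfin : S.Finite := (Set.finite_range b).insert x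
  haveI : Finite S := hSfin.to_subtype
  have hint : ∀ s ∈ S, IsIntegral K⟮t⟯ s := fun s _ =>
    (Algebra.IsAlgebraic.isAlgebraic s).isIntegral
  haveI : FiniteDimensional K⟮t⟯ (adjoin K⟮t⟯ S) :=
    IntermediateField.finiteDimensional_adjoin hint
  have htop : adjoin K⟮t⟯ S = ⊤ := by
    rw [eq_top_iff]
    intro y _
    have hle : K⟮x⟯ ≤ (adjoin K⟮t⟯ S).restrictScalars K := by
      rw [adjoin_le_iff]
      rintro z (rfl : z = x)
      exact subset_adjoin K⟮t⟯ S (Set.mem_insert _ _)
    have hy : y = ∑ i, b.repr y i • b i := (b.sum_repr y).symm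
    rw [hy]
    refine sum_mem fun i _ => ?_
    rw [Algebra.smul_def]
    refine mul_mem ?_ (subset_adjoin K⟮t⟯ S (Set.mem_insert_of_mem _ (Set.mem_range_self i)))
    exact hle (b.repr y i).2
  have e : (adjoin K⟮t⟯ S) ≃ₗ[K⟮t⟯] F :=
    (IntermediateField.equivOfEq htop).toLinearEquiv.trans
      (IntermediateField.topEquiv (F := K⟮t⟯) (E := F)).toLinearEquiv
  exact Module.Finite.equiv e

/-- `[F : K(t)] < ∞` for every transcendental `t`, if this holds for one `x`. -/
theorem finiteDimensional_adjoin_of_transcendental {x t : F} [FiniteDimensional K⟮x⟯ F]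
    (ht : Transcendental K t) : FiniteDimensional K⟮t⟯ F := by
  haveI : Algebra.IsAlgebraic K⟮x⟯ F := Algebra.IsAlgebraic.of_finite _ _
  haveI := isAlgebraic_adjoin_of_transcendental (x := x) ht
  exact finiteDimensional_adjoin_of_algebraic (x := x) (t := t)

theorem adjoin_simple_inv (t : F) : K⟮t⁻¹⟯ = K⟮t⟯ := by
  apply le_antisymm
  · rw [adjoin_simple_le_iff]
    exact inv_mem (mem_adjoin_simple_self K t)
  · rw [adjoin_simple_le_iff]
    have h := inv_mem (mem_adjoin_simple_self K t⁻¹)
    rwa [inv_inv] at h

theorem adjoin_simple_sub_algebraMap (t : F) (a : K) : K⟮t - algebraMap K F a⟯ = K⟮t⟯ := by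
  apply le_antisymm
  · rw [adjoin_simple_le_iff]
    exact sub_mem (mem_adjoin_simple_self K t) (IntermediateField.algebraMap_mem _ a)
  · rw [adjoin_simple_le_iff]
    have h := add_mem (mem_adjoin_simple_self K (t - algebraMap K F a))
      (IntermediateField.algebraMap_mem K⟮t - algebraMap K F a⟯ a)
    rwa [sub_add_cancel] at h

theorem finrank_adjoin_simple_inv (t : F) :
    Module.finrank K⟮t⁻¹⟯ F = Module.finrank K⟮t⟯ F :=
  congrArg (fun L : IntermediateField K F => Module.finrank L F) (adjoin_simple_inv t)

theorem finrank_adjoin_simple_sub (t : F) (a : K) :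
    Module.finrank K⟮t - algebraMap K F a⟯ F = Module.finrank K⟮t⟯ F :=
  congrArg (fun L : IntermediateField K F => Module.finrank L F)
    (adjoin_simple_sub_algebraMap t a)

theorem transcendental_inv {t : F} (ht : Transcendental K t) : Transcendental K t⁻¹ := by
  intro h
  apply ht
  have := h.inv
  rwa [inv_inv] at this

theorem transcendental_sub_algebraMap {t : F} (ht : Transcendental K t) (a : K) :
    Transcendental K (t - algebraMap K F a) := by
  intro h
  apply ht
  have : t = (t - algebraMap K F a) + algebraMap K F a := by ring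
  rw [this]
  exact h.add (isAlgebraic_algebraMap a)

end FiniteDim

section Divisors

variable [CharZero K] (x : F) [FiniteDimensional K⟮x⟯ F]

include x in
/-- The zeros of a transcendental function are finite in number. -/
theorem finite_zeros_of_transcendental {t : F} (ht : Transcendental K t) :
    {v : Place K F | 0 < v.ord t}.Finite :=
  haveI := finiteDimensional_adjoin_of_transcendental (x := x) ht
  FF.finite_zeros t ht

include x in
/-- `∑_{v : ord_v t > 0} ord_v t · deg v = [F : K(t)]`. -/
theorem sum_zeros_of_transcendental {t : F} (ht : Transcendental K t) :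
    ∑ v ∈ (finite_zeros_of_transcendental x ht).toFinset, v.ord t * (v.deg : ℤ)
      = (Module.finrank K⟮t⟯ F : ℤ) :=
  haveI := finiteDimensional_adjoin_of_transcendental (x := x) ht
  FF.sum_zeros t ht

include x in
theorem finite_poles_of_transcendental {t : F} (ht : Transcendental K t) :
    {v : Place K F | v.ord t < 0}.Finite := by
  have h := finite_zeros_of_transcendental x (transcendental_inv ht)
  refine h.subset fun v hv => ?_
  show 0 < v.ord t⁻¹
  rw [v.ord_inv]
  have : v.ord t < 0 := hv
  omega

include x in
/-- `∑_{v : ord_v t < 0} ord_v t · deg v = -[F : K(t)]`. -/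
theorem sum_poles_of_transcendental {t : F} (ht : Transcendental K t) :
    ∑ v ∈ (finite_poles_of_transcendental x ht).toFinset, v.ord t * (v.deg : ℤ)
      = -(Module.finrank K⟮t⟯ F : ℤ) := by
  have h := sum_zeros_of_transcendental x (transcendental_inv ht)
  rw [finrank_adjoin_simple_inv] at h
  rw [← h, ← Finset.sum_neg_distrib]
  refine Finset.sum_congr ?_ fun v _ => ?_
  · ext v
    simp only [Set.Finite.mem_toFinset, Set.mem_ofPred_eq]
    rw [v.ord_inv]
    omega
  · rw [v.ord_inv]
    ring

include x in
/-- The set of zeros and poles of any function is finite. -/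
theorem finite_ord_ne_zero (f : F) : {v : Place K F | v.ord f ≠ 0}.Finite := by
  by_cases hf : Transcendental K f
  · refine ((finite_zeros_of_transcendental x hf).union
      (finite_poles_of_transcendental x hf)).subset fun v hv => ?_
    have : v.ord f ≠ 0 := hv
    rcases lt_or_gt_of_ne this with h | h
    · exact Or.inr h
    · exact Or.inl h
  · convert Set.finite_empty
    ext v
    simp only [Set.mem_ofPred_eq, Set.mem_empty_iff_false, iff_false, not_not]
    by_contra h
    exact hf (transcendental_of_ord_ne_zero v h)

variable (K) in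
/-- The divisor of a function. -/
def divFun (f : F) : Divisor K F :=
  Finsupp.ofSupportFinite (fun v => v.ord f) (finite_ord_ne_zero x f)

@[simp]
theorem divFun_apply (f : F) (v : Place K F) : divFun K x f v = v.ord f := rfl

theorem degree_eq_sum_of_support_subset (D : Divisor K F) (T : Finset (Place K F))
    (hT : D.support ⊆ T) : Divisor.degree D = ∑ v ∈ T, D v * (v.deg : ℤ) := by
  have : Divisor.degree D = D.sum fun v n => n * (v.deg : ℤ) := by
    simp [Divisor.degree, Finsupp.liftAddHom_apply]
  rw [this]
  exact Finsupp.sum_of_support_subset D hT _ (fun v _ => zero_mul _)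

/-- Principal divisors have degree zero. -/
theorem degree_divFun (f : F) : Divisor.degree (divFun K x f) = 0 := by
  classical
  by_cases hf : Transcendental K f
  · have hsub : (divFun K x f).support ⊆ (finite_zeros_of_transcendental x hf).toFinset ∪
        (finite_poles_of_transcendental x hf).toFinset := by
      intro v hv
      rw [Finsupp.mem_support_iff, divFun_apply] at hv
      rw [Finset.mem_union, Set.Finite.mem_toFinset, Set.Finite.mem_toFinset]
      rcases lt_or_gt_of_ne hv with h | h
      · exact Or.inr h
      · exact Or.inl h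
    rw [degree_eq_sum_of_support_subset (divFun K x f) _ hsub, Finset.sum_union]
    · simp only [divFun_apply]
      rw [sum_zeros_of_transcendental x hf, sum_poles_of_transcendental x hf]
      ring
    · rw [Finset.disjoint_left]
      intro v h1 h2
      rw [Set.Finite.mem_toFinset] at h1 h2
      have h1' : 0 < v.ord f := h1
      have h2' : v.ord f < 0 := h2
      omega
  · have : divFun K x f = 0 := by
      ext v
      rw [divFun_apply, Finsupp.zero_apply]
      by_contra h
      exact hf (transcendental_of_ord_ne_zero v h)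
    rw [this, map_zero]

end Divisors

section Local

variable {v : Place K F}

theorem deg_eq_one_of_isRationalPlace (hv : IsRationalPlace v) : v.deg = 1 := by
  have hbij : Function.Bijective (algebraMap K v.ResidueField) :=
    ⟨(algebraMap K v.ResidueField).injective, hv.surj⟩
  show Module.finrank K v.ResidueField = 1
  rw [← Module.finrank_self K]
  exact ((AlgEquiv.ofBijective (Algebra.ofId K v.ResidueField) hbij).toLinearEquiv.finrank_eq).symm

theorem ord_algebraMap_eq_zero (v : Place K F) (c : K) : v.ord (algebraMap K F c) = 0 := by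
  by_contra h
  exact transcendental_of_ord_ne_zero v h (isAlgebraic_algebraMap c)

theorem mem_maximalIdeal_of_ord_pos {f : F} (hf : 0 < v.ord f) :
    ∃ h : f ∈ v.toValuationSubring,
      (⟨f, h⟩ : v.toValuationSubring) ∈ IsLocalRing.maximalIdeal v.toValuationSubring := by
  have hmem : f ∈ v.toValuationSubring := FF.mem_of_ord_nonneg v hf.le
  refine ⟨hmem, ?_⟩
  rw [IsLocalRing.mem_maximalIdeal, mem_nonunits_iff]
  rintro ⟨u, hu⟩
  have := v.ord_coe_unit u
  rw [hu] at this
  have h2 : v.ord f = 0 := this
  omega

/-- A place cannot lie over two different points of the `x`-line. -/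
theorem eq_of_ord_sub_pos {y : F} {a b : K} (ha : 0 < v.ord (y - algebraMap K F a))
    (hb : 0 < v.ord (y - algebraMap K F b)) : a = b := by
  by_contra hab
  obtain ⟨h1, h1'⟩ := mem_maximalIdeal_of_ord_pos ha
  obtain ⟨h2, h2'⟩ := mem_maximalIdeal_of_ord_pos hb
  have h3 := Ideal.sub_mem _ h2' h1'
  have h4 : ((⟨y - algebraMap K F b, h2⟩ : v.toValuationSubring) - ⟨y - algebraMap K F a, h1⟩)
      = algebraMap K v.toValuationSubring (a - b) := by
    apply Subtype.ext
    show (y - algebraMap K F b) - (y - algebraMap K F a) = algebraMap K F (a - b)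
    rw [map_sub]; ring
  rw [h4, IsLocalRing.mem_maximalIdeal, mem_nonunits_iff] at h3
  apply h3
  exact (isUnit_iff_ne_zero.mpr (sub_ne_zero.mpr hab)).map (algebraMap K v.toValuationSubring)

theorem ord_nonneg_of_ord_sub_pos {y : F} {a : K} (ha : 0 < v.ord (y - algebraMap K F a)) :
    0 ≤ v.ord y := by
  have h1 : y - algebraMap K F a ∈ v.toValuationSubring := FF.mem_of_ord_nonneg v ha.le
  have h2 : y ∈ v.toValuationSubring := by
    have := v.toValuationSubring.add_mem _ _ h1 (v.algebraMap_mem' a)
    rwa [sub_add_cancel] at this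
  exact FF.ord_nonneg_of_mem v h2

end Local

section Rational

variable [CharZero K] (x : F) [FiniteDimensional K⟮x⟯ F]

include x in
/-- In a function field of one variable every place has finite residue field. -/
theorem finite_residueField (v : Place K F) : Module.Finite K v.ResidueField := by
  have hord : v.ord ((chosenUniformizer v : v.toValuationSubring) : F) = 1 :=
    ord_chosenUniformizer v
  generalize ((chosenUniformizer v : v.toValuationSubring) : F) = t at hord
  have htr : Transcendental K t := transcendental_of_ord_ne_zero v (by rw [hord]; exact one_ne_zero)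
  haveI := finiteDimensional_adjoin_of_transcendental (x := x) htr
  have hmem : v ∈ Set.range (FF.placeOfPrimeOver t htr) := by
    rw [FF.range_placeOfPrimeOver t htr]
    show 0 < v.ord t
    omega
  obtain ⟨Q, hQ⟩ := hmem
  have hdeg := FF.deg_placeOfPrimeOver t htr Q
  rw [hQ] at hdeg
  haveI := FF.finite_intClosure t htr
  haveI : Q.1.IsPrime := Q.2.1
  have hpos : 0 < Q.1.inertiaDeg (Algebra.adjoin K {t}) := Ideal.inertiaDeg_pos _ _
  rw [← hdeg] at hpos
  exact Module.finite_of_finrank_pos hpos

include x in
theorem isRationalPlace_of_finiteDimensional [IsAlgClosed K] (v : Place K F) :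
    IsRationalPlace v :=
  haveI := finite_residueField x v
  isRationalPlace_of_isAlgClosed v

end Rational

section Genus

variable [CharZero K] (x : F) (hx : Transcendental K x) [FiniteDimensional K⟮x⟯ F]
  (hrat : ∀ v : Place K F, IsRationalPlace v)

/-- the fibre of the `x`-line over `a`. -/
def fibre (a : K) : Set (Place K F) := {v | 0 < v.ord (x - algebraMap K F a)}

/-- the fibre over `∞`. -/
def polar : Set (Place K F) := {v | v.ord x < 0}

include hx in
theorem finite_fibre (a : K) : (fibre x a).Finite :=
  finite_zeros_of_transcendental x (transcendental_sub_algebraMap hx a)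

include hx in
theorem finite_polar : (polar (K := K) x).Finite :=
  finite_poles_of_transcendental x hx

include hrat in
theorem sum_fibre (a : K) :
    ∑ v ∈ (finite_fibre x hx a).toFinset, v.ord (x - algebraMap K F a)
      = (Module.finrank K⟮x⟯ F : ℤ) := by
  have h := sum_zeros_of_transcendental x (transcendental_sub_algebraMap hx a)
  rw [finrank_adjoin_simple_sub] at h
  rw [← h]
  refine Finset.sum_congr rfl fun v _ => ?_
  rw [deg_eq_one_of_isRationalPlace (hrat v)]
  simp

include hrat in
theorem sum_polar :
    ∑ v ∈ (finite_polar (K := K) x hx).toFinset, v.ord x = -(Module.finrank K⟮x⟯ F : ℤ) := by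
  have h := sum_poles_of_transcendental x hx
  rw [← h]
  refine Finset.sum_congr rfl fun v _ => ?_
  rw [deg_eq_one_of_isRationalPlace (hrat v)]
  simp

include hx hrat in
/-- local description of the divisor of `dx`. -/
theorem ordDifferential_D_cases (v : Place K F) :
    (v ∈ polar x ∧ v.ordDifferential (D K F x) = v.ord x - 1) ∨
    (∃ a : K, v ∈ fibre x a ∧
      v.ordDifferential (D K F x) = v.ord (x - algebraMap K F a) - 1) := by
  have hF : ∃ y : F, Algebra.IsAlgebraic K⟮y⟯ F := ⟨x, Algebra.IsAlgebraic.of_finite _ _⟩
  by_cases hmem : x ∈ v.toValuationSubring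
  · right
    obtain ⟨c, hc | hc⟩ := exists_value v (hrat v) hmem
    · exact absurd (hc ▸ isAlgebraic_algebraMap c) hx
    · have hc' : 0 < v.ord (x - algebraMap K F c) := by omega
      refine ⟨c, hc', ?_⟩
      exact ordDifferential_D_eq_of_sub_const hF v (hrat v) c (by omega)
  · left
    exact ordDifferential_D_eq_of_not_mem hF v (hrat v) hmem

include hx hrat in
/-- In an unramified fibre all ramification indices are one. -/
theorem ord_eq_one_of_card_fibre {a : K}
    (ha : Nat.card (fibre x a) = Module.finrank K⟮x⟯ F) {v : Place K F} (hv : v ∈ fibre x a) :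
    v.ord (x - algebraMap K F a) = 1 := by
  classical
  have hsum := sum_fibre x hx hrat a
  have hcard : ((finite_fibre x hx a).toFinset.card : ℤ) = (Module.finrank K⟮x⟯ F : ℤ) := by
    rw [← ha, Nat.card_eq_card_finite_toFinset (finite_fibre x hx a)]
  have hzero : ∑ w ∈ (finite_fibre x hx a).toFinset, (w.ord (x - algebraMap K F a) - 1) = 0 := by
    rw [Finset.sum_sub_distrib, hsum, Finset.sum_const, nsmul_eq_mul, mul_one, hcard, sub_self]
  have hnonneg : ∀ w ∈ (finite_fibre x hx a).toFinset,
      0 ≤ w.ord (x - algebraMap K F a) - 1 := by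
    intro w hw
    rw [Set.Finite.mem_toFinset] at hw
    have : 0 < w.ord (x - algebraMap K F a) := hw
    omega
  have := (Finset.sum_eq_zero_iff_of_nonneg hnonneg).mp hzero v
    ((Set.Finite.mem_toFinset _).mpr hv)
  omega

include hx hrat in
theorem ordDifferential_D_of_mem_polar {v : Place K F} (hv : v ∈ polar x) :
    v.ordDifferential (D K F x) = v.ord x - 1 := by
  rcases ordDifferential_D_cases x hx hrat v with h | ⟨a, ha, -⟩
  · exact h.2
  · have h1 := ord_nonneg_of_ord_sub_pos ha
    have h2 : v.ord x < 0 := hv
    omega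

include hx hrat in
theorem ordDifferential_D_of_mem_fibre {v : Place K F} {a : K} (hv : v ∈ fibre x a) :
    v.ordDifferential (D K F x) = v.ord (x - algebraMap K F a) - 1 := by
  rcases ordDifferential_D_cases x hx hrat v with h | ⟨b, hb, hb'⟩
  · have h1 := ord_nonneg_of_ord_sub_pos hv
    have h2 : v.ord x < 0 := h.1
    omega
  · have : b = a := eq_of_ord_sub_pos hb hv
    rw [← this]
    exact hb'

include hx hrat in
/-- **Riemann–Hurwitz**: the degree of the divisor of `dx`. -/
theorem degree_div_dx (Dx : Divisor K F) (hDx : ∀ v, Dx v = v.ordDifferential (D K F x))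
    (S : Finset K) (hunr : ∀ a ∉ S, Nat.card (fibre x a) = Module.finrank K⟮x⟯ F) :
    Divisor.degree Dx = ∑ a ∈ S, ((Module.finrank K⟮x⟯ F : ℤ) - Nat.card (fibre x a))
      - (Module.finrank K⟮x⟯ F : ℤ) - Nat.card (polar (K := K) x) := by
  classical
  set n : ℤ := (Module.finrank K⟮x⟯ F : ℤ) with hn
  set P := (finite_polar (K := K) x hx).toFinset with hP
  set Z : K → Finset (Place K F) := fun a => (finite_fibre x hx a).toFinset with hZ
  have hmemP : ∀ v, v ∈ P ↔ v ∈ polar (K := K) x := fun v => Set.Finite.mem_toFinset _
  have hmemZ : ∀ a v, v ∈ Z a ↔ v ∈ fibre x a := fun a v => Set.Finite.mem_toFinset _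
  have hsub : Dx.support ⊆ P ∪ S.biUnion Z := by
    intro v hv
    rw [Finsupp.mem_support_iff, hDx] at hv
    rw [Finset.mem_union, Finset.mem_biUnion]
    rcases ordDifferential_D_cases x hx hrat v with h | ⟨a, ha, ha'⟩
    · left
      exact (hmemP v).mpr h.1
    · right
      refine ⟨a, ?_, (hmemZ a v).mpr ha⟩
      by_contra haS
      have h1 := ord_eq_one_of_card_fibre x hx hrat (hunr a haS) ha
      rw [ha', h1] at hv
      exact hv (by norm_num)
  have hdisj1 : Disjoint P (S.biUnion Z) := by
    rw [Finset.disjoint_left]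
    intro v h1 h2
    rw [Finset.mem_biUnion] at h2
    obtain ⟨a, -, ha⟩ := h2
    have h1' : v.ord x < 0 := (hmemP v).mp h1
    have h2'' : v ∈ fibre x a := (hmemZ a v).mp ha
    have h2' := ord_nonneg_of_ord_sub_pos h2''
    omega
  have hdisj2 : (S : Set K).PairwiseDisjoint Z := by
    intro a _ b _ hab
    show Disjoint (Z a) (Z b)
    rw [Finset.disjoint_left]
    intro v h1 h2
    have h1' : v ∈ fibre x a := (hmemZ a v).mp h1
    have h2' : v ∈ fibre x b := (hmemZ b v).mp h2
    exact hab (eq_of_ord_sub_pos h1' h2')
  rw [degree_eq_sum_of_support_subset Dx _ hsub, Finset.sum_union hdisj1,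
    Finset.sum_biUnion hdisj2]
  have hpol : ∑ v ∈ P, Dx v * (v.deg : ℤ) = -n - Nat.card (polar (K := K) x) := by
    have h1 : ∀ v ∈ P, Dx v * (v.deg : ℤ) = v.ord x - 1 := by
      intro v hv
      rw [deg_eq_one_of_isRationalPlace (hrat v), hDx,
        ordDifferential_D_of_mem_polar x hx hrat ((hmemP v).mp hv)]
      simp
    rw [Finset.sum_congr rfl h1, Finset.sum_sub_distrib, sum_polar x hx hrat, Finset.sum_const,
      nsmul_eq_mul, mul_one, Nat.card_eq_card_finite_toFinset (finite_polar (K := K) x hx)]
  have hfib : ∀ a ∈ S, ∑ v ∈ Z a, Dx v * (v.deg : ℤ) = n - Nat.card (fibre x a) := by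
    intro a _
    have h1 : ∀ v ∈ Z a, Dx v * (v.deg : ℤ) = v.ord (x - algebraMap K F a) - 1 := by
      intro v hv
      rw [deg_eq_one_of_isRationalPlace (hrat v), hDx,
        ordDifferential_D_of_mem_fibre x hx hrat ((hmemZ a v).mp hv)]
      simp
    rw [Finset.sum_congr rfl h1, Finset.sum_sub_distrib, sum_fibre x hx hrat a, Finset.sum_const,
      nsmul_eq_mul, mul_one, Nat.card_eq_card_finite_toFinset (finite_fibre x hx a)]
  rw [hpol, Finset.sum_congr rfl hfib]
  ring


include hx hrat in
/-- **Genus from fibre counts** (Riemann–Hurwitz on the prelude's `AlgebraicCurve.genus`).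
`S` is a finite set of branch points containing all finite branch points. -/
theorem genus_eq_of_fibre_counts [HasCanonicalDivisor (K := K) (F := F)] (S : Finset K)
    (hunr : ∀ a ∉ S, Nat.card (fibre x a) = Module.finrank K⟮x⟯ F) (g : ℕ)
    (hg : ∑ a ∈ S, ((Module.finrank K⟮x⟯ F : ℤ) - Nat.card (fibre x a))
      - (Module.finrank K⟮x⟯ F : ℤ) - Nat.card (polar (K := K) x) = 2 * (g : ℤ) - 2) :
    AlgebraicCurve.genus K F = g := by
  classical
  have hF : ∃ y : F, Algebra.IsAlgebraic K⟮y⟯ F := ⟨x, Algebra.IsAlgebraic.of_finite _ _⟩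
  haveI : Algebra.IsAlgebraic K⟮x⟯ F := Algebra.IsAlgebraic.of_finite _ _
  -- a place exists
  obtain ⟨a, haS⟩ := Infinite.exists_notMem_finset S
  have hpos : 0 < Module.finrank K⟮x⟯ F := Module.finrank_pos
  have hne : (fibre x a).Nonempty := by
    by_contra hemp
    rw [Set.not_nonempty_iff_eq_empty] at hemp
    have := hunr a haS
    rw [hemp] at this
    simp at this
    omega
  obtain ⟨v₀, -⟩ := hne
  haveI := hrat v₀
  haveI : Nontrivial Ω[F⁄K] := nontrivial_kaehler v₀
  have hspan : Submodule.span F {D K F x} = ⊤ := span_D_eq_top_of_isAlgebraic x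
  have hdx : D K F x ≠ 0 := by
    intro h0
    rw [h0, Submodule.span_zero_singleton] at hspan
    exact bot_ne_top hspan
  have h : ∃ ω : Ω[F⁄K], ω ≠ 0 := ⟨_, hdx⟩
  have hdegx : Divisor.degree (canonicalDivisorOf hdx) = 2 * (g : ℤ) - 2 := by
    rw [degree_div_dx x hx hrat _ (fun v => canonicalDivisorOf_apply hdx v) S hunr, hg]
  -- the differential chosen by the prelude
  obtain ⟨f, hf⟩ : ∃ f : F, h.choose = f • D K F x := by
    have hmem : h.choose ∈ Submodule.span F {D K F x} := by rw [hspan]; exact Submodule.mem_top
    obtain ⟨f, hf⟩ := Submodule.mem_span_singleton.mp hmem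
    exact ⟨f, hf.symm⟩
  have hf0 : f ≠ 0 := by
    rintro rfl
    rw [zero_smul] at hf
    exact h.choose_spec hf
  have hdiv : canonicalDivisorOf h.choose_spec = divFun K x f + canonicalDivisorOf hdx := by
    ext v
    haveI := dCoordGenerates hF v
    rw [Finsupp.add_apply, canonicalDivisorOf_apply, canonicalDivisorOf_apply, divFun_apply, hf]
    refine v.ordDifferential_smul hf0 ?_
    intro h0
    apply hdx
    rw [← v.differentialCoeff_smul_dCoord (D K F x), h0, zero_smul]
  have hdeg : Divisor.degree (canonicalDivisorOf h.choose_spec) = 2 * (g : ℤ) - 2 := by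
    rw [hdiv, map_add, degree_divFun, zero_add, hdegx]
  unfold AlgebraicCurve.genus
  rw [dif_pos h, hdeg]
  omega

include hx in
/-- **Genus from fibre counts**, over an algebraically closed constant field
(all places are automatically rational). -/
theorem genus_eq_of_fibre_counts' [IsAlgClosed K] [HasCanonicalDivisor (K := K) (F := F)]
    (S : Finset K)
    (hunr : ∀ a ∉ S, Nat.card (fibre x a) = Module.finrank K⟮x⟯ F) (g : ℕ)
    (hg : ∑ a ∈ S, ((Module.finrank K⟮x⟯ F : ℤ) - Nat.card (fibre x a))
      - (Module.finrank K⟮x⟯ F : ℤ) - Nat.card (polar (K := K) x) = 2 * (g : ℤ) - 2) :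
    AlgebraicCurve.genus K F = g :=
  genus_eq_of_fibre_counts x hx (isRationalPlace_of_finiteDimensional x) S hunr g hg

end Genus

end Fermat.Agent.ProgramR.RHLocal
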