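/-
Program R, package RH-local (helper2).
Comparison of the Kähler differential `D K F y` at a place with the formal derivative of the
Taylor expansion.  Main results (`A` a DVR with coefficient field `K`, `F = Frac A`, `ϖ` a
uniformizer, `span F {D K F ϖ} = ⊤`):
* `exists_D_eq_smul`: for `y : A`, `D K F y = b • D K F ϖ` with `b : A`, `taylor b = (taylor y)'`;
* `exists_D_unit_mul_zpow` (char. 0): `D K F (u ϖ ^ n) = (w ϖ ^ (n-1)) • D K F ϖ`, `w` a unit, `n ≠ 0`.
-/
import Fermat.Agent.ProgramR.RHLocal.Taylor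

set_option autoImplicit false

noncomputable section

namespace Fermat.Agent.ProgramR.RHLocal

open IsLocalRing PowerSeries KaehlerDifferential

section General

variable {K A F B : Type*} [Field K] [CommRing A] [IsDomain A] [Algebra K A]
  [Field F] [Algebra A F] [IsFractionRing A F] [Algebra K F] [IsScalarTower K A F]
  [CommRing B] [IsDomain B] [Algebra K B] [Algebra A B] [IsScalarTower K A B]

/-- If `s • dy = a • dt` in `Ω[F⁄K]` (with `s a y t : A`), then the same relation holds after
applying any `K`-derivation of a domain `B ⊇ A`. -/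
theorem derivation_rel_of_D_rel (hinj : Function.Injective (algebraMap A B))
    (δ : Derivation K B B) {s a y t : A}
    (h : algebraMap A F s • D K F (algebraMap A F y) = algebraMap A F a • D K F (algebraMap A F t)) :
    algebraMap A B s * δ (algebraMap A B y) = algebraMap A B a * δ (algebraMap A B t) := by
  have : IsLocalizedModule (nonZeroDivisors A) (KaehlerDifferential.map K K A F) :=
    KaehlerDifferential.isLocalizedModule_map K A F (nonZeroDivisors A)
  set ω : Ω[A⁄K] := s • D K A y - a • D K A t with hω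
  have hmap : KaehlerDifferential.map K K A F ω = 0 := by
    rw [hω, map_sub, map_smul, map_smul, KaehlerDifferential.map_D, KaehlerDifferential.map_D,
      sub_eq_zero, ← algebraMap_smul F s (D K F (algebraMap A F y)),
      ← algebraMap_smul F a (D K F (algebraMap A F t))]
    exact h
  obtain ⟨c, hc⟩ := (IsLocalizedModule.eq_zero_iff (nonZeroDivisors A)
    (KaehlerDifferential.map K K A F)).mp hmap
  rw [Submonoid.smul_def] at hc
  have hφ := congrArg ((δ.compAlgebraMap A).liftKaehlerDifferential) hc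
  rw [map_zero, map_smul, hω, map_sub, map_smul, map_smul,
    Derivation.liftKaehlerDifferential_comp_D, Derivation.liftKaehlerDifferential_comp_D] at hφ
  simp only [Derivation.compAlgebraMap_apply] at hφ
  rw [Algebra.smul_def, Algebra.smul_def, Algebra.smul_def] at hφ
  have hc0 : algebraMap A B (c : A) ≠ 0 := by
    intro h0
    have := hinj (h0.trans (map_zero _).symm)
    exact nonZeroDivisors.coe_ne_zero c this
  have := (mul_eq_zero.mp hφ).resolve_left hc0
  exact sub_eq_zero.mp this

end General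

section DVR

variable {K A F : Type*} [Field K] [CommRing A] [IsDomain A] [IsDiscreteValuationRing A]
  [Algebra K A] [RatRes K A]
  [Field F] [Algebra A F] [IsFractionRing A F] [Algebra K F] [IsScalarTower K A F]

variable {ϖ : A}

theorem taylor_rel_of_D_rel (hϖ : Irreducible ϖ) {s a y : A}
    (h : algebraMap A F s • D K F (algebraMap A F y) = algebraMap A F a • D K F (algebraMap A F ϖ)) :
    taylor K hϖ s * d⁄dX K (taylor K hϖ y) = taylor K hϖ a := by
  letI : Algebra A K⟦X⟧ := (taylor K hϖ).toRingHom.toAlgebra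
  haveI : IsScalarTower K A K⟦X⟧ :=
    IsScalarTower.of_algebraMap_eq fun c => ((taylor K hϖ).commutes c).symm
  have := derivation_rel_of_D_rel (K := K) (A := A) (F := F) (B := K⟦X⟧)
    (taylor_injective hϖ) (d⁄dX K) h
  have e : ∀ x : A, algebraMap A K⟦X⟧ x = taylor K hϖ x := fun _ => rfl
  rw [e, e, e, e, taylor_irreducible, PowerSeries.derivative_X, mul_one] at this
  exact this

/-- `dy = b dϖ` with `b ∈ A` and `taylor b = (taylor y)'`. -/
theorem exists_D_eq_smul (hϖ : Irreducible ϖ)
    (hspan : Submodule.span F {D K F (algebraMap A F ϖ)} = ⊤) (y : A) :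
    ∃ b : A, D K F (algebraMap A F y) = algebraMap A F b • D K F (algebraMap A F ϖ) ∧
      taylor K hϖ b = d⁄dX K (taylor K hϖ y) := by
  have hmem : D K F (algebraMap A F y) ∈ Submodule.span F {D K F (algebraMap A F ϖ)} := by
    rw [hspan]; exact Submodule.mem_top
  obtain ⟨g, hg⟩ := Submodule.mem_span_singleton.mp hmem
  obtain ⟨a, s, hs, rfl⟩ := IsFractionRing.div_surjective (A := A) g
  have hs0 : algebraMap A F s ≠ 0 := by
    intro h0
    exact nonZeroDivisors.ne_zero hs
      ((IsFractionRing.injective A F) (h0.trans (map_zero _).symm))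
  have hrel : algebraMap A F s • D K F (algebraMap A F y)
      = algebraMap A F a • D K F (algebraMap A F ϖ) := by
    rw [← hg, smul_smul, mul_div_cancel₀ _ hs0]
  have ht := taylor_rel_of_D_rel (K := K) hϖ hrel
  obtain ⟨b, rfl⟩ : s ∣ a := order_taylor_le_of_dvd (K := K) hϖ ⟨_, ht.symm⟩
  refine ⟨b, ?_, ?_⟩
  · rw [← hg, map_mul, mul_div_cancel_left₀ _ hs0]
  · rw [map_mul] at ht
    have hs1 : taylor K hϖ s ≠ 0 := taylor_ne_zero hϖ (nonZeroDivisors.ne_zero hs)
    exact (mul_left_cancel₀ hs1 ht).symm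

end DVR

section CharZero

variable {K : Type*} [Field K] [CharZero K]

theorem order_derivative_of_order_succ {P : K⟦X⟧} {n : ℕ} (hP : P.order = (n + 1 : ℕ)) :
    (d⁄dX K P).order = n := by
  obtain ⟨hc, hlt⟩ := PowerSeries.order_eq_nat.mp hP
  rw [PowerSeries.order_eq_nat]
  refine ⟨?_, fun i hi => ?_⟩
  · rw [PowerSeries.coeff_derivative]
    refine mul_ne_zero hc ?_
    exact_mod_cast Nat.succ_ne_zero n
  · rw [PowerSeries.coeff_derivative, hlt (i + 1) (by omega), zero_mul]

end CharZero

section DVRCharZero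

variable {K A F : Type*} [Field K] [CharZero K] [CommRing A] [IsDomain A]
  [IsDiscreteValuationRing A] [Algebra K A] [RatRes K A]
  [Field F] [Algebra A F] [IsFractionRing A F] [Algebra K F] [IsScalarTower K A F]

variable {ϖ : A}

/-- `d(u ϖ^(m+1)) = w ϖ^m dϖ` for a unit `w`. -/
theorem exists_D_unit_mul_pow_succ (hϖ : Irreducible ϖ)
    (hspan : Submodule.span F {D K F (algebraMap A F ϖ)} = ⊤) (u : Aˣ) (m : ℕ) :
    ∃ w : Aˣ, D K F (algebraMap A F ((u : A) * ϖ ^ (m + 1)))
      = algebraMap A F ((w : A) * ϖ ^ m) • D K F (algebraMap A F ϖ) := by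
  obtain ⟨b, hb, htb⟩ := exists_D_eq_smul (K := K) (F := F) hϖ hspan ((u : A) * ϖ ^ (m + 1))
  have hord : (taylor K hϖ b).order = m := by
    rw [htb]
    exact order_derivative_of_order_succ (order_taylor_unit_mul_pow hϖ u (m + 1))
  obtain ⟨w, rfl⟩ := exists_unit_mul_pow_of_order hϖ hord
  exact ⟨w, hb⟩

omit [CharZero K] [IsDomain A] [IsDiscreteValuationRing A] [RatRes K A] [IsFractionRing A F]
  [IsScalarTower K A F] [Algebra A F] [Algebra K A] in
/-- The differential of a constant vanishes. -/
theorem D_algebraMap_eq_zero (c : K) : D K F (algebraMap K F c) = 0 :=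
  (D K F).map_algebraMap c

/-- `d(u t^n) = w t^(n-1) dt` for a unit `w`, whenever `n ≠ 0` (characteristic zero). -/
theorem exists_D_unit_mul_zpow (hϖ : Irreducible ϖ)
    (hspan : Submodule.span F {D K F (algebraMap A F ϖ)} = ⊤) (u : Aˣ) {n : ℤ} (hn : n ≠ 0) :
    ∃ w : Aˣ, D K F (algebraMap A F (u : A) * algebraMap A F ϖ ^ n)
      = (algebraMap A F (w : A) * algebraMap A F ϖ ^ (n - 1)) • D K F (algebraMap A F ϖ) := by
  have ht0 : algebraMap A F ϖ ≠ 0 := by
    intro h0
    exact hϖ.ne_zero ((IsFractionRing.injective A F) (h0.trans (map_zero _).symm))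
  have hu0 : algebraMap A F (u : A) ≠ 0 := by
    intro h0
    exact u.ne_zero ((IsFractionRing.injective A F) (h0.trans (map_zero _).symm))
  rcases lt_or_gt_of_ne hn with hneg | hpos
  · -- pole
    obtain ⟨m, hm⟩ : ∃ m : ℕ, n = -((m : ℤ) + 1) := ⟨(-n - 1).toNat, by omega⟩
    obtain ⟨w, hw⟩ := exists_D_unit_mul_pow_succ (K := K) (F := F) hϖ hspan u⁻¹ m
    refine ⟨-(u * u * w), ?_⟩
    have huinv : algebraMap A F ((u⁻¹ : Aˣ) : A) = (algebraMap A F (u : A))⁻¹ := by
      apply eq_inv_of_mul_eq_one_right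
      rw [← map_mul, Units.mul_inv, map_one]
    have hfinv : (algebraMap A F (u : A) * algebraMap A F ϖ ^ n)⁻¹
        = algebraMap A F (((u⁻¹ : Aˣ) : A) * ϖ ^ (m + 1)) := by
      rw [map_mul, map_pow, huinv, mul_inv, hm, ← zpow_neg, neg_neg]
      congr 1
      exact_mod_cast rfl
    have h1 : D K F (algebraMap A F (u : A) * algebraMap A F ϖ ^ n)
        = -(algebraMap A F (u : A) * algebraMap A F ϖ ^ n) ^ 2
          • D K F (algebraMap A F (u : A) * algebraMap A F ϖ ^ n)⁻¹ := by
      have := Derivation.leibniz_inv (D K F) (algebraMap A F (u : A) * algebraMap A F ϖ ^ n)⁻¹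
      rw [inv_inv] at this
      exact this
    have hpow : algebraMap A F ϖ ^ n * algebraMap A F ϖ ^ n * algebraMap A F ϖ ^ (m : ℤ)
        = algebraMap A F ϖ ^ (n - 1) := by
      rw [← zpow_add₀ ht0, ← zpow_add₀ ht0]
      congr 1
      omega
    have hcoe : algebraMap A F ((-(u * u * w) : Aˣ) : A)
        = -(algebraMap A F (u : A) * algebraMap A F (u : A) * algebraMap A F (w : A)) := by
      rw [Units.val_neg, Units.val_mul, Units.val_mul, map_neg, map_mul, map_mul]
    rw [h1, hfinv, hw, smul_smul, hcoe, ← hpow, map_mul, map_pow, zpow_natCast]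
    congr 1
    ring
  · obtain ⟨m, hm⟩ : ∃ m : ℕ, n = (m : ℤ) + 1 := ⟨(n - 1).toNat, by omega⟩
    obtain ⟨w, hw⟩ := exists_D_unit_mul_pow_succ (K := K) (F := F) hϖ hspan u m
    refine ⟨w, ?_⟩
    have e1 : algebraMap A F (u : A) * algebraMap A F ϖ ^ n
        = algebraMap A F ((u : A) * ϖ ^ (m + 1)) := by
      rw [map_mul, map_pow, hm]
      congr 1
      exact_mod_cast rfl
    have e2 : algebraMap A F (w : A) * algebraMap A F ϖ ^ (n - 1)
        = algebraMap A F ((w : A) * ϖ ^ m) := by
      rw [map_mul, map_pow, hm, add_sub_cancel_right, zpow_natCast]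
    rw [e1, e2, hw]

end DVRCharZero

end Fermat.Agent.ProgramR.RHLocal
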