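/-
Program R, package RH-local (helper2).
Taylor expansion at a discrete valuation ring `A` containing a field `K` that maps onto the
residue field: an injective `K`-algebra hom `taylor ϖ : A →ₐ[K] K⟦X⟧` with `ϖ ↦ X`.
No completion theory is used: the coefficients are defined by the obvious recursion.
-/
import Mathlib

set_option autoImplicit false

noncomputable section

namespace Fermat.Agent.ProgramR.RHLocal

open IsLocalRing PowerSeries

/-- The coefficient field `K` of the local `K`-algebra `A` maps onto the residue field. -/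
class RatRes (K A : Type*) [Field K] [CommRing A] [IsLocalRing A] [Algebra K A] : Prop where
  surj : Function.Surjective (algebraMap K (ResidueField A))

section Res

variable (K A : Type*) [Field K] [CommRing A] [IsLocalRing A] [Algebra K A] [RatRes K A]

/-- `K ≃ residue field`. -/
def resEquiv : K ≃ₐ[K] ResidueField A :=
  AlgEquiv.ofBijective (Algebra.ofId K (ResidueField A))
    ⟨(algebraMap K (ResidueField A)).injective, RatRes.surj⟩

/-- The value at the closed point, `A →ₐ[K] K`. -/
def res : A →ₐ[K] K :=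
  ((resEquiv K A).symm : ResidueField A →ₐ[K] K).comp
    (IsScalarTower.toAlgHom K A (ResidueField A))

variable {K A}

theorem algebraMap_res (a : A) :
    algebraMap K (ResidueField A) (res K A a) = residue A a := by
  exact (resEquiv K A).apply_symm_apply (residue A a)

theorem res_eq_zero_iff (a : A) : res K A a = 0 ↔ a ∈ maximalIdeal A := by
  rw [← residue_eq_zero_iff, ← algebraMap_res (K := K) a]
  constructor
  · intro h; rw [h, map_zero]
  · intro h
    exact (algebraMap K (ResidueField A)).injective (by rw [h, map_zero])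

theorem sub_algebraMap_res_mem (a : A) :
    a - algebraMap K A (res K A a) ∈ maximalIdeal A := by
  rw [← res_eq_zero_iff (K := K), map_sub, AlgHom.commutes]
  simp

theorem res_ne_zero_iff_isUnit (a : A) : res K A a ≠ 0 ↔ IsUnit a := by
  rw [Ne, res_eq_zero_iff, mem_maximalIdeal, mem_nonunits_iff, not_not]

end Res

section Taylor

variable {K A : Type*} [Field K] [CommRing A] [IsDomain A] [IsDiscreteValuationRing A]
  [Algebra K A] [RatRes K A]

/-- `(a - a(0)) / ϖ`. -/
def shiftFun (K : Type*) {A : Type*} [Field K] [CommRing A] [IsDomain A]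
    [IsDiscreteValuationRing A] [Algebra K A] [RatRes K A] (ϖ : A) (a : A) : A :=
  letI := Classical.propDecidable
  if h : ∃ b : A, a - algebraMap K A (res K A a) = ϖ * b then h.choose else 0

variable {ϖ : A}

theorem mul_shiftFun (hϖ : Irreducible ϖ) (a : A) :
    ϖ * shiftFun K ϖ a = a - algebraMap K A (res K A a) := by
  have h : ∃ b : A, a - algebraMap K A (res K A a) = ϖ * b := by
    have hm := sub_algebraMap_res_mem (K := K) a
    rw [hϖ.maximalIdeal_eq, Ideal.mem_span_singleton] at hm
    exact hm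
  rw [shiftFun, dif_pos h]
  exact h.choose_spec.symm

theorem shiftFun_unique (hϖ : Irreducible ϖ) {a b : A}
    (h : ϖ * b = a - algebraMap K A (res K A a)) : shiftFun K ϖ a = b := by
  have := mul_shiftFun (K := K) hϖ a
  exact mul_left_cancel₀ hϖ.ne_zero (this.trans h.symm)

/-- The shift as a `K`-linear map. -/
def shift (K : Type*) {A : Type*} [Field K] [CommRing A] [IsDomain A]
    [IsDiscreteValuationRing A] [Algebra K A] [RatRes K A] {ϖ : A} (hϖ : Irreducible ϖ) :
    A →ₗ[K] A where
  toFun := shiftFun K ϖ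
  map_add' a b := by
    apply shiftFun_unique hϖ
    rw [mul_add, mul_shiftFun hϖ, mul_shiftFun hϖ, map_add, map_add]
    ring
  map_smul' c a := by
    apply shiftFun_unique hϖ
    rw [RingHom.id_apply, mul_smul_comm, mul_shiftFun hϖ, map_smul, smul_sub, Algebra.smul_def,
      Algebra.smul_def, Algebra.smul_def, map_mul]
    simp

theorem mul_shift (hϖ : Irreducible ϖ) (a : A) :
    ϖ * shift K hϖ a = a - algebraMap K A (res K A a) :=
  mul_shiftFun hϖ a

theorem eq_add_mul_shift (hϖ : Irreducible ϖ) (a : A) :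
    a = algebraMap K A (res K A a) + ϖ * shift K hϖ a := by
  rw [mul_shift]; ring

theorem shift_unique (hϖ : Irreducible ϖ) {a b : A}
    (h : ϖ * b = a - algebraMap K A (res K A a)) : shift K hϖ a = b :=
  shiftFun_unique hϖ h

theorem shift_mul (hϖ : Irreducible ϖ) (a b : A) :
    shift K hϖ (a * b) = res K A a • shift K hϖ b + shift K hϖ a * b := by
  apply shift_unique hϖ
  have ha := mul_shift (K := K) hϖ a
  have hb := mul_shift (K := K) hϖ b
  rw [map_mul, map_mul, Algebra.smul_def, mul_add]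
  linear_combination (algebraMap K A (res K A a)) * hb + b * ha

theorem shift_algebraMap (hϖ : Irreducible ϖ) (c : K) : shift K hϖ (algebraMap K A c) = 0 := by
  apply shift_unique hϖ
  rw [AlgHom.commutes]
  simp

theorem shift_one (hϖ : Irreducible ϖ) : shift K hϖ (1 : A) = 0 := by
  have := shift_algebraMap (K := K) hϖ 1
  rwa [map_one] at this

theorem res_irreducible (hϖ : Irreducible ϖ) : res K A ϖ = 0 := by
  rw [res_eq_zero_iff, hϖ.maximalIdeal_eq]
  exact Ideal.mem_span_singleton_self ϖ

theorem shift_irreducible (hϖ : Irreducible ϖ) : shift K hϖ ϖ = 1 := by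
  apply shift_unique hϖ
  rw [res_irreducible hϖ]
  simp

theorem shift_irreducible_mul (hϖ : Irreducible ϖ) (a : A) : shift K hϖ (ϖ * a) = a := by
  apply shift_unique hϖ
  rw [map_mul, res_irreducible hϖ]
  simp

/-- Taylor expansion as a `K`-linear map. -/
def taylorₗ (K : Type*) {A : Type*} [Field K] [CommRing A] [IsDomain A]
    [IsDiscreteValuationRing A] [Algebra K A] [RatRes K A] {ϖ : A} (hϖ : Irreducible ϖ) :
    A →ₗ[K] K⟦X⟧ where
  toFun a := PowerSeries.mk fun n => res K A ((shift K hϖ ^ n) a)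
  map_add' a b := by
    ext n
    simp
  map_smul' c a := by
    ext n
    simp

@[simp]
theorem coeff_taylorₗ (hϖ : Irreducible ϖ) (n : ℕ) (a : A) :
    PowerSeries.coeff n (taylorₗ K hϖ a) = res K A ((shift K hϖ ^ n) a) := by
  simp [taylorₗ]

theorem taylorₗ_eq (hϖ : Irreducible ϖ) (a : A) :
    taylorₗ K hϖ a = PowerSeries.C (res K A a) + PowerSeries.X * taylorₗ K hϖ (shift K hϖ a) := by
  ext n
  rcases n with _ | n
  · simp
  · rw [map_add, PowerSeries.coeff_succ_X_mul, coeff_taylorₗ, coeff_taylorₗ, pow_succ,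
      PowerSeries.coeff_C]
    simp

theorem taylorₗ_algebraMap (hϖ : Irreducible ϖ) (c : K) :
    taylorₗ K hϖ (algebraMap K A c) = PowerSeries.C c := by
  rw [taylorₗ_eq, shift_algebraMap, map_zero, mul_zero, add_zero, AlgHom.commutes]
  rfl

theorem taylorₗ_one (hϖ : Irreducible ϖ) : taylorₗ K hϖ (1 : A) = 1 := by
  have := taylorₗ_algebraMap (K := K) hϖ 1
  rw [map_one] at this
  rw [this, map_one]

theorem taylorₗ_mul (hϖ : Irreducible ϖ) (a b : A) :
    taylorₗ K hϖ (a * b) = taylorₗ K hϖ a * taylorₗ K hϖ b := by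
  ext n
  induction n generalizing a b with
  | zero =>
    simp [PowerSeries.coeff_zero_eq_constantCoeff_apply]
    rw [← PowerSeries.coeff_zero_eq_constantCoeff_apply, ← PowerSeries.coeff_zero_eq_constantCoeff_apply,
      coeff_taylorₗ, coeff_taylorₗ]
    simp
  | succ n ih =>
    have h1 : ∀ c : A, PowerSeries.coeff (n + 1) (taylorₗ K hϖ c)
        = PowerSeries.coeff n (taylorₗ K hϖ (shift K hϖ c)) := by
      intro c
      rw [coeff_taylorₗ, coeff_taylorₗ, pow_succ]
      rfl
    have h2 : PowerSeries.coeff (n + 1) (taylorₗ K hϖ a * taylorₗ K hϖ b)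
        = res K A a * PowerSeries.coeff (n + 1) (taylorₗ K hϖ b)
          + PowerSeries.coeff n (taylorₗ K hϖ (shift K hϖ a) * taylorₗ K hϖ b) := by
      rw [taylorₗ_eq hϖ a, add_mul, map_add, mul_assoc, PowerSeries.coeff_succ_X_mul,
        PowerSeries.coeff_C_mul]
    rw [h1, h2, shift_mul, map_add, map_smul, map_add, PowerSeries.coeff_smul, ih, h1 b,
      smul_eq_mul]

/-- Taylor expansion at the closed point of `A` with respect to the uniformizer `ϖ`. -/
def taylor (K : Type*) {A : Type*} [Field K] [CommRing A] [IsDomain A]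
    [IsDiscreteValuationRing A] [Algebra K A] [RatRes K A] {ϖ : A} (hϖ : Irreducible ϖ) :
    A →ₐ[K] K⟦X⟧ :=
  AlgHom.ofLinearMap (taylorₗ K hϖ) (taylorₗ_one hϖ) (taylorₗ_mul hϖ)

theorem taylor_apply (hϖ : Irreducible ϖ) (a : A) : taylor K hϖ a = taylorₗ K hϖ a := rfl

theorem taylor_eq (hϖ : Irreducible ϖ) (a : A) :
    taylor K hϖ a = PowerSeries.C (res K A a) + PowerSeries.X * taylor K hϖ (shift K hϖ a) :=
  taylorₗ_eq hϖ a

@[simp]
theorem constantCoeff_taylor (hϖ : Irreducible ϖ) (a : A) :
    PowerSeries.constantCoeff (taylor K hϖ a) = res K A a := by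
  rw [taylor_eq]
  simp

@[simp]
theorem taylor_irreducible (hϖ : Irreducible ϖ) : taylor K hϖ ϖ = PowerSeries.X := by
  rw [taylor_eq, res_irreducible hϖ, shift_irreducible hϖ, map_one]
  simp

theorem isUnit_taylor_iff (hϖ : Irreducible ϖ) (a : A) :
    IsUnit (taylor K hϖ a) ↔ IsUnit a := by
  rw [PowerSeries.isUnit_iff_constantCoeff, constantCoeff_taylor, isUnit_iff_ne_zero,
    res_ne_zero_iff_isUnit]

theorem taylor_unit_mul_pow (hϖ : Irreducible ϖ) (u : Aˣ) (n : ℕ) :
    taylor K hϖ ((u : A) * ϖ ^ n) = taylor K hϖ (u : A) * PowerSeries.X ^ n := by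
  rw [map_mul, map_pow, taylor_irreducible]

theorem order_taylor_unit_mul_pow (hϖ : Irreducible ϖ) (u : Aˣ) (n : ℕ) :
    (taylor K hϖ ((u : A) * ϖ ^ n)).order = n := by
  rw [taylor_unit_mul_pow, PowerSeries.order_mul, PowerSeries.order_X_pow]
  have hu : IsUnit (taylor K hϖ (u : A)) := (isUnit_taylor_iff hϖ _).mpr u.isUnit
  have : (taylor K hϖ (u : A)).order = 0 := by
    rw [PowerSeries.order_zero_of_unit hu]
  rw [this, zero_add]

theorem taylor_injective (hϖ : Irreducible ϖ) : Function.Injective (taylor K hϖ) := by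
  rw [injective_iff_map_eq_zero]
  intro a ha
  by_contra hne
  obtain ⟨n, u, rfl⟩ := IsDiscreteValuationRing.eq_unit_mul_pow_irreducible hne hϖ
  have h := order_taylor_unit_mul_pow (K := K) hϖ u n
  rw [ha, PowerSeries.order_zero] at h
  exact absurd h (by simp)

theorem taylor_ne_zero (hϖ : Irreducible ϖ) {a : A} (ha : a ≠ 0) : taylor K hϖ a ≠ 0 :=
  fun h => ha (taylor_injective hϖ (h.trans (map_zero _).symm))

theorem order_taylor_le_of_dvd (hϖ : Irreducible ϖ) {s a : A}
    (h : taylor K hϖ s ∣ taylor K hϖ a) : s ∣ a := by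
  rcases eq_or_ne a 0 with rfl | ha
  · exact dvd_zero s
  rcases eq_or_ne s 0 with rfl | hs
  · rw [map_zero, zero_dvd_iff] at h
    exact absurd (taylor_injective hϖ (h.trans (map_zero _).symm)) ha
  obtain ⟨n, u, rfl⟩ := IsDiscreteValuationRing.eq_unit_mul_pow_irreducible hs hϖ
  obtain ⟨m, w, rfl⟩ := IsDiscreteValuationRing.eq_unit_mul_pow_irreducible ha hϖ
  obtain ⟨P, hP⟩ := h
  have h1 := order_taylor_unit_mul_pow (K := K) hϖ u n
  have h2 := order_taylor_unit_mul_pow (K := K) hϖ w m
  rw [hP, PowerSeries.order_mul, h1] at h2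
  have hnm : n ≤ m := by
    have : (n : ℕ∞) ≤ m := by rw [← h2]; exact le_self_add
    exact_mod_cast this
  refine ⟨(u⁻¹ * w : Aˣ) * ϖ ^ (m - n), ?_⟩
  have : ϖ ^ m = ϖ ^ n * ϖ ^ (m - n) := by rw [← pow_add, Nat.add_sub_cancel' hnm]
  rw [this, Units.val_mul]
  have hu : (u : A) * ((u⁻¹ : Aˣ) : A) = 1 := by simp
  linear_combination (-(w : A) * ϖ ^ n * ϖ ^ (m - n)) * hu

theorem exists_unit_mul_pow_of_order (hϖ : Irreducible ϖ) {b : A} {n : ℕ}
    (hb : (taylor K hϖ b).order = n) : ∃ u : Aˣ, b = (u : A) * ϖ ^ n := by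
  have hb0 : b ≠ 0 := by
    rintro rfl
    rw [map_zero, PowerSeries.order_zero] at hb
    exact absurd hb (by simp)
  obtain ⟨m, u, rfl⟩ := IsDiscreteValuationRing.eq_unit_mul_pow_irreducible hb0 hϖ
  rw [order_taylor_unit_mul_pow] at hb
  have : m = n := by exact_mod_cast hb
  exact ⟨u, by rw [this]⟩


end Taylor

end Fermat.Agent.ProgramR.RHLocal
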